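import Mathlib
import Fermat.Agent.LT.T2.H724.CommSpec

/-!
# Row LT, tower T2, sub-leaf T2.02d.2 `ConvShapeC724` (SHAPE) -- helper833, OFF-MAIN

`convShapeC833 : H724.ConvShapeC724 K` VERBATIM against
`LT/T2/H724/CommSpec.lean` (helper724@7fd05bef9, sha256 78972da3, byte-identical copy; with
`LT/T2/Spec.lean` b934629a, `LT/T1/Spec.lean` e8ae48d6, `LT/H556/A0.lean` 66d3374a).

The convolution kernel `(f₁ ⋆ f₂)(g) = ∫ f₁(h) f₂(h⁻¹ g) dμ(h)` of two functions of spherical shape
has spherical shape.  No regularity and no integrability is used: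

* right invariance: pointwise equality of the integrands;
* left invariance: `integral_mul_left_eq_self` (left invariance of the Haar measure, valid for
  every function) and the left invariance of `f₁`;
* support at the places dividing the level: if the integral is not `0`, some integrand is not
  `0`, so `g = h (h⁻¹ g)` is a product of two bad units, and the bad units are closed under
  multiplication (`idealClosure 𝔫 v` is closed under addition and multiplication).

The hypothesis `T1.LocCompC K` of the Prop is not needed.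
-/

set_option autoImplicit false

open IsDedekindDomain NumberField MeasureTheory AutomorphicForm
open Fermat.Agent.LT.H556.A0

noncomputable section

namespace Fermat.Agent.LT.T2.H833

open Fermat.Agent.LT.T2 Fermat.Agent.LT.T2.H724

variable {K : Type} [Field K] [NumberField K]

attribute [local instance] Fermat.Agent.LT.T2.borelG

/-! ## 1. `idealClosure 𝔫 v` is closed under addition and multiplication -/

/-- The ring homomorphism `𝓞 K → K_v`. -/
def toCompl833 (v : HeightOneSpectrum (𝓞 K)) : 𝓞 K →+* v.adicCompletion K :=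
  (algebraMap K (v.adicCompletion K)).comp (algebraMap (𝓞 K) K)

theorem idealClosure_eq833 (𝔫 : Ideal (𝓞 K)) (v : HeightOneSpectrum (𝓞 K)) :
    idealClosure 𝔫 v = closure ((toCompl833 v) '' (𝔫 : Set (𝓞 K))) := rfl

theorem zero_mem_idealClosure833 (𝔫 : Ideal (𝓞 K)) (v : HeightOneSpectrum (𝓞 K)) :
    (0 : v.adicCompletion K) ∈ idealClosure 𝔫 v := by
  rw [idealClosure_eq833]
  exact subset_closure ⟨0, 𝔫.zero_mem, map_zero _⟩

theorem add_mem_idealClosure833 (𝔫 : Ideal (𝓞 K)) (v : HeightOneSpectrum (𝓞 K))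
    {x y : v.adicCompletion K} (hx : x ∈ idealClosure 𝔫 v) (hy : y ∈ idealClosure 𝔫 v) :
    x + y ∈ idealClosure 𝔫 v := by
  rw [idealClosure_eq833] at hx hy ⊢
  refine map_mem_closure₂ (f := fun a b : v.adicCompletion K => a + b) continuous_add hx hy ?_
  rintro _ ⟨a, ha, rfl⟩ _ ⟨b, hb, rfl⟩
  exact ⟨a + b, 𝔫.add_mem ha hb, map_add _ _ _⟩

theorem mul_mem_idealClosure833 (𝔫 : Ideal (𝓞 K)) (v : HeightOneSpectrum (𝓞 K))
    {x y : v.adicCompletion K} (hx : x ∈ idealClosure 𝔫 v) (hy : y ∈ idealClosure 𝔫 v) :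
    x * y ∈ idealClosure 𝔫 v := by
  rw [idealClosure_eq833] at hx hy ⊢
  refine map_mem_closure₂ (f := fun a b : v.adicCompletion K => a * b) continuous_mul hx hy ?_
  rintro _ ⟨a, ha, rfl⟩ _ ⟨b, hb, rfl⟩
  exact ⟨a * b, 𝔫.mul_mem_left a hb, map_mul _ _ _⟩

/-! ## 2. The bad units are closed under multiplication -/

/-- The component at the finite place `v`, as a ring homomorphism. -/
def finHom833 (v : HeightOneSpectrum (𝓞 K)) : Adl K →+* v.adicCompletion K :=
  (RestrictedProduct.evalRingHom (fun v : HeightOneSpectrum (𝓞 K) => v.adicCompletion K) v).comp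
    (RingHom.snd (InfiniteAdeleRing K) (FiniteAdeleRing (𝓞 K) K))

theorem finComp_eq_map833 (v : HeightOneSpectrum (𝓞 K)) (g : G K) :
    finComp v g = (g : Matrix (Fin 2) (Fin 2) (Adl K)).map (finHom833 v) := rfl

theorem finComp_mul833 (v : HeightOneSpectrum (𝓞 K)) (g h : G K) :
    finComp v (g * h) = finComp v g * finComp v h := by
  rw [finComp_eq_map833, finComp_eq_map833, finComp_eq_map833, Units.val_mul, Matrix.map_mul]

/-- `(A B - 1) = (A - 1)(B - 1) + (A - 1) + (B - 1)`, entrywise in a set closed under `+`, `*`. -/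
theorem sub_one_mul_mem833 {R : Type*} [CommRing R] (I : Set R)
    (hadd : ∀ x y, x ∈ I → y ∈ I → x + y ∈ I) (hmul : ∀ x y, x ∈ I → y ∈ I → x * y ∈ I)
    (A B : Matrix (Fin 2) (Fin 2) R) (hA : ∀ i j, (A - 1) i j ∈ I) (hB : ∀ i j, (B - 1) i j ∈ I)
    (i j : Fin 2) : (A * B - 1) i j ∈ I := by
  have e : A * B - 1 = (A - 1) * (B - 1) + (A - 1) + (B - 1) := by
    noncomm_ring
  rw [e]
  have h1 : ((A - 1) * (B - 1)) i j ∈ I := by
    rw [Matrix.mul_apply, Fin.sum_univ_two]
    exact hadd _ _ (hmul _ _ (hA i 0) (hB 0 j)) (hmul _ _ (hA i 1) (hB 1 j))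
  rw [Matrix.add_apply, Matrix.add_apply]
  exact hadd _ _ (hadd _ _ h1 (hA i j)) (hB i j)

theorem isBadUnit_mul833 {𝔫 : Ideal (𝓞 K)} {a b : G K} (ha : IsBadUnit724 𝔫 a)
    (hb : IsBadUnit724 𝔫 b) : IsBadUnit724 𝔫 (a * b) := by
  intro v hv i j
  refine ⟨?_, ?_⟩
  · rw [finComp_mul833]
    exact sub_one_mul_mem833 (idealClosure 𝔫 v)
      (fun x y hx hy => add_mem_idealClosure833 𝔫 v hx hy)
      (fun x y hx hy => mul_mem_idealClosure833 𝔫 v hx hy) _ _
      (fun i j => (ha v hv i j).1) (fun i j => (hb v hv i j).1) i j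
  · rw [mul_inv_rev, finComp_mul833]
    exact sub_one_mul_mem833 (idealClosure 𝔫 v)
      (fun x y hx hy => add_mem_idealClosure833 𝔫 v hx hy)
      (fun x y hx hy => mul_mem_idealClosure833 𝔫 v hx hy) _ _
      (fun i j => (hb v hv i j).2) (fun i j => (ha v hv i j).2) i j

/-! ## 3. The leaf -/

/-- Left invariance of the convolution kernel under an element which leaves `f₁` invariant on the
left.  (Left invariance of the Haar measure; no integrability.) -/
theorem convKer_left833 (F : Frame K) (f₁ f₂ : G K → ℂ) (u : G K)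
    (hu : ∀ g : G K, f₁ (u * g) = f₁ g) (g : G K) :
    convKer724 F f₁ f₂ (u * g) = convKer724 F f₁ f₂ g := by
  have : BorelSpace (G K) := ⟨rfl⟩
  have := F.haar
  unfold convKer724
  rw [← integral_mul_left_eq_self (μ := F.μ) (fun h => f₁ h * f₂ (h⁻¹ * (u * g))) u]
  refine integral_congr_ae (Filter.Eventually.of_forall fun h => ?_)
  simp only
  rw [hu h, mul_inv_rev, mul_assoc, inv_mul_cancel_left]

/-- Right invariance of the convolution kernel under an element which leaves `f₂` invariant on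
the right. -/
theorem convKer_right833 (F : Frame K) (f₁ f₂ : G K → ℂ) (u : G K)
    (hu : ∀ g : G K, f₂ (g * u) = f₂ g) (g : G K) :
    convKer724 F f₁ f₂ (g * u) = convKer724 F f₁ f₂ g := by
  unfold convKer724
  refine integral_congr_ae (Filter.Eventually.of_forall fun h => ?_)
  simp only
  rw [← mul_assoc, hu]

/-- If the convolution kernel does not vanish at `g`, then `g = h (h⁻¹ g)` with `f₁ h ≠ 0` and
`f₂ (h⁻¹ g) ≠ 0`. -/
theorem exists_of_convKer_ne_zero833 (F : Frame K) (f₁ f₂ : G K → ℂ) (g : G K)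
    (hg : convKer724 F f₁ f₂ g ≠ 0) : ∃ h : G K, f₁ h ≠ 0 ∧ f₂ (h⁻¹ * g) ≠ 0 := by
  by_contra hcon
  have hcon : ∀ h : G K, f₁ h ≠ 0 → f₂ (h⁻¹ * g) = 0 := fun h h1 =>
    by_contra fun h2 => hcon ⟨h, h1, h2⟩
  apply hg
  unfold convKer724
  have : (fun h => f₁ h * f₂ (h⁻¹ * g)) = fun _ => (0 : ℂ) := by
    funext h
    by_cases h1 : f₁ h = 0
    · rw [h1, zero_mul]
    · rw [hcon h h1, mul_zero]
  rw [this, integral_zero]

/-- **T2.02d.2 SHAPE** (registry row 1078), VERBATIM. -/
theorem convShapeC833 (K : Type) [Field K] [NumberField K] : ConvShapeC724 K := by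
  intro _ 𝔫 F f₁ f₂ h₁ h₂
  refine ⟨?_, ?_, ?_, ?_, ?_⟩
  · intro u hu g
    exact convKer_right833 F f₁ f₂ u (h₂.level_right u hu) g
  · intro u hu g
    exact convKer_left833 F f₁ f₂ u (h₁.level_left u hu) g
  · intro w k hk g
    exact convKer_right833 F f₁ f₂ k (h₂.arch_right w k hk) g
  · intro w k hk g
    exact convKer_left833 F f₁ f₂ k (h₁.arch_left w k hk) g
  · intro g hg
    obtain ⟨h, hh1, hh2⟩ := exists_of_convKer_ne_zero833 F f₁ f₂ g hg
    have e : g = h * (h⁻¹ * g) := by rw [mul_inv_cancel_left]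
    rw [e]
    exact isBadUnit_mul833 (h₁.bad_unit h hh1) (h₂.bad_unit _ hh2)

end Fermat.Agent.LT.T2.H833

end
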