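import Mathlib
import Fermat.Agent.LT.T2.SpecTau

/-!
# Row LT, tower T2, leaf T2.21 `LeafT01` (`T`-form of T2.01) -- helper833, OFF-MAIN

`leafT01_833 : Fermat.Agent.LT.T2.LeafT01 K` for every number field `K`, VERBATIM against
`LT/T2/SpecTau.lean` (helper130@e2e090185, sha256 4d2b0fc2, byte-identical copy; with
`LT/T2/Spec.lean` b934629a, `LT/T1/Spec.lean` e8ae48d6, `LT/H556/A0.lean` 66d3374a).

* `frameRExists833`: a Haar measure of `GL₂(𝔸_K)` (`T1.LocCompC`), the strict fundamental domain of
  `T1.FundDomC`, and a ray generator (`exists_rayGen833`: the real scalar `2^{1/(2[K:ℚ])}` at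
  every infinite place; construction of helper62 `T5/H62/FrameExists.lean`, re-typed for
  `T2.IsRayGen`).
* `pairDefiniteT833`: as in T2.01 (helper245 `T2/H245/Leaf01.lean`) the open set `V = {φ ≠ 0}`
  meets the slab in a null set.  The class of T5 has no invariance under the positive scalars at
  one infinite place, so the last step is different: a ray generator `r` is a CENTRAL scalar
  (`rayGen_val833`, `rayGen_commute833`) with `‖det r‖_𝔸 = 2` (`detNorm_rayGen833`), every `g` has
  a translate `g rᵐ` in the slab (`exists_zpow_mem_slab833`), `V rᵐ = V`, and right translation by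
  the central `rᵐ` is left translation, which preserves the Haar measure; so `μ V = 0`, and `V` is
  open, hence empty.  Neither `τ` nor `𝔫 ≠ ⊥` nor the continuity of the module is used.
-/

set_option autoImplicit false
set_option linter.unusedSectionVars false

open IsDedekindDomain NumberField MeasureTheory AutomorphicForm
open Fermat.Agent.LT.H556.A0
open Fermat.Agent.LT

noncomputable section

namespace Fermat.Agent.LT.T2.H833

variable {K : Type} [Field K] [NumberField K]

attribute [local instance] Fermat.Agent.LT.T2.borelG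

/-! ## 0. Countability, extensionality of adeles -/

theorem countable_field833 (K : Type) [Field K] [NumberField K] : Countable K := by
  have e := (Module.finBasis ℚ K).equivFun
  exact e.injective.countable

theorem countable_GL833 (K : Type) [Field K] [NumberField K] : Countable (GL (Fin 2) K) := by
  have := countable_field833 K
  have hinj : Function.Injective (fun g : GL (Fin 2) K => fun i j : Fin 2 =>
      (g : Matrix (Fin 2) (Fin 2) K) i j) := by
    intro g h hgh
    apply Units.ext
    ext i j
    exact congrFun (congrFun hgh i) j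
  exact hinj.countable

/-- Two adeles with the same components (the infinite ones read in `ℂ`) are equal. -/
theorem adele_ext833 (a b : Adl K)
    (h1 : ∀ w : InfinitePlace K, InfinitePlace.Completion.extensionEmbedding w (a.1 w)
      = InfinitePlace.Completion.extensionEmbedding w (b.1 w))
    (h2 : ∀ v : HeightOneSpectrum (𝓞 K), a.2 v = b.2 v) : a = b := by
  refine Prod.ext (funext fun w => ?_) (RestrictedProduct.ext _ _ h2)
  exact (InfinitePlace.Completion.extensionEmbedding w).injective (h1 w)

/-! ## 1. A ray generator exists (construction of helper62, for `T2.IsRayGen`) -/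

omit [NumberField K] in
/-- Every real number is the image of an element of the completion at an infinite place. -/
theorem exists_completion_eq_ofReal833 (w : InfinitePlace K) (t : ℝ) :
    ∃ c : w.Completion, InfinitePlace.Completion.extensionEmbedding w c = (t : ℂ) := by
  rcases InfinitePlace.isReal_or_isComplex w with hw | hw
  · obtain ⟨c, hc⟩ := InfinitePlace.Completion.surjective_extensionEmbeddingOfIsReal hw t
    refine ⟨c, ?_⟩
    rw [← InfinitePlace.Completion.extensionEmbeddingOfIsReal_apply hw, hc]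
  · exact InfinitePlace.Completion.surjective_extensionEmbedding_of_isComplex hw (t : ℂ)

/-- A central element of `GL₂(𝔸_K)` which is `1` at the finite places and the real scalar `t ≠ 0`
at every infinite place. -/
theorem exists_centralRay833 (t : ℝ) (ht : t ≠ 0) :
    ∃ r : G K, (∀ v : HeightOneSpectrum (𝓞 K), TrivAtFin v r) ∧
      ∀ w : InfinitePlace K, infComp w r = Matrix.diagonal (fun _ => (t : ℂ)) := by
  classical
  choose c hc using fun w : InfinitePlace K => exists_completion_eq_ofReal833 w t
  choose c' hc' using fun w : InfinitePlace K => exists_completion_eq_ofReal833 w t⁻¹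
  have hcc : ∀ w, c w * c' w = 1 := by
    intro w
    apply (InfinitePlace.Completion.extensionEmbedding w).injective
    rw [map_mul, hc, hc', map_one, ← Complex.ofReal_mul, mul_inv_cancel₀ ht, Complex.ofReal_one]
  let x : Adl K := (fun w => c w, 1)
  let x' : Adl K := (fun w => c' w, 1)
  have hxx : x * x' = 1 := by
    refine Prod.ext ?_ ?_
    · funext w
      exact hcc w
    · show (1 : FiniteAdeleRing (𝓞 K) K) * 1 = 1
      rw [mul_one]
  let u : (Adl K)ˣ := ⟨x, x', hxx, by rw [mul_comm]; exact hxx⟩
  let r : G K := Units.map (Matrix.scalar (Fin 2)).toMonoidHom u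
  have hr : (r : Matrix (Fin 2) (Fin 2) (Adl K)) = Matrix.diagonal (fun _ => x) := rfl
  refine ⟨r, ?_, ?_⟩
  · intro v
    show finComp v r = 1
    apply Matrix.ext
    intro i j
    show ((r : Matrix (Fin 2) (Fin 2) (Adl K)) i j).2 v = _
    rw [hr]
    by_cases hij : i = j
    · subst hij
      rw [Matrix.diagonal_apply_eq, Matrix.one_apply_eq]
      rfl
    · rw [Matrix.diagonal_apply_ne _ hij, Matrix.one_apply_ne hij]
      rfl
  · intro w
    apply Matrix.ext
    intro i j
    show InfinitePlace.Completion.extensionEmbedding w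
      (((r : Matrix (Fin 2) (Fin 2) (Adl K)) i j).1 w) = _
    rw [hr]
    by_cases hij : i = j
    · subst hij
      rw [Matrix.diagonal_apply_eq, Matrix.diagonal_apply_eq]
      exact hc w
    · rw [Matrix.diagonal_apply_ne _ hij, Matrix.diagonal_apply_ne _ hij]
      exact map_zero _

/-- **A generator of the discrete central ray exists** (`T2.IsRayGen`). -/
theorem exists_rayGen833 (K : Type) [Field K] [NumberField K] : ∃ r : G K, IsRayGen r := by
  have hn : 2 * Module.finrank ℚ K ≠ 0 :=
    Nat.mul_ne_zero two_ne_zero (Module.finrank_pos (R := ℚ) (M := K)).ne'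
  set t : ℝ := (2 : ℝ) ^ (((2 * Module.finrank ℚ K : ℕ) : ℝ)⁻¹) with ht
  have htpos : 0 < t := Real.rpow_pos_of_pos two_pos _
  have htpow : t ^ (2 * Module.finrank ℚ K) = 2 :=
    Real.rpow_inv_natCast_pow (by norm_num : (0 : ℝ) ≤ 2) hn
  obtain ⟨r, hfin, hinf⟩ := exists_centralRay833 (K := K) t htpos.ne'
  exact ⟨r, hfin, t, htpos, htpow, hinf⟩

/-! ## 2. The module of the determinant -/

/-- The module of the determinant, as a function on `GL₂(𝔸_K)`. -/
def detNorm833 (g : G K) : ℝ :=
  T1.adNorm K (Matrix.det (g : Matrix (Fin 2) (Fin 2) (Adl K)))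

theorem detNorm833_eq (g : G K) :
    detNorm833 g = T1.adNorm K ((Matrix.GeneralLinearGroup.det g : (Adl K)ˣ) : Adl K) := by
  rw [Matrix.GeneralLinearGroup.val_det_apply]
  rfl

theorem detNorm833_mul (hN : T1.AdNormC K) (g h : G K) :
    detNorm833 (g * h) = detNorm833 g * detNorm833 h := by
  rw [detNorm833_eq, detNorm833_eq, detNorm833_eq, map_mul]
  exact hN.2.1 _ _

theorem detNorm833_pos (hN : T1.AdNormC K) (g : G K) : 0 < detNorm833 g := by
  rw [detNorm833_eq]
  exact hN.1 _

theorem mem_slab_iff833 (g : G K) :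
    g ∈ T1.slab K ↔ 1 ≤ detNorm833 g ∧ detNorm833 g < 2 := Iff.rfl

/-! ## 3. A ray generator is a central scalar, and the module of its determinant is `2` -/

/-- A ray generator is the scalar matrix of its entry `(0,0)`. -/
theorem rayGen_val833 {r : G K} (hr : IsRayGen r) :
    (r : Matrix (Fin 2) (Fin 2) (Adl K))
      = Matrix.scalar (Fin 2) ((r : Matrix (Fin 2) (Fin 2) (Adl K)) 0 0) := by
  obtain ⟨hfin, t, -, -, hinf⟩ := hr
  have e1 : ∀ (w : InfinitePlace K) (i j : Fin 2),
      InfinitePlace.Completion.extensionEmbedding w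
        (((r : Matrix (Fin 2) (Fin 2) (Adl K)) i j).1 w)
        = (Matrix.diagonal (fun _ : Fin 2 => (t : ℂ))) i j :=
    fun w i j => congrFun (congrFun (hinf w) i) j
  have e2 : ∀ (v : HeightOneSpectrum (𝓞 K)) (i j : Fin 2),
      ((r : Matrix (Fin 2) (Fin 2) (Adl K)) i j).2 v
        = (1 : Matrix (Fin 2) (Fin 2) (v.adicCompletion K)) i j :=
    fun v i j => congrFun (congrFun (hfin v) i) j
  have hoff : ∀ i j : Fin 2, i ≠ j → (r : Matrix (Fin 2) (Fin 2) (Adl K)) i j = 0 := by
    intro i j hij
    refine adele_ext833 _ _ (fun w => ?_) (fun v => ?_)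
    · rw [e1 w i j, Matrix.diagonal_apply_ne _ hij]
      exact (map_zero _).symm
    · rw [e2 v i j, Matrix.one_apply_ne hij]
      rfl
  have hdiag : (r : Matrix (Fin 2) (Fin 2) (Adl K)) 1 1
      = (r : Matrix (Fin 2) (Fin 2) (Adl K)) 0 0 := by
    refine adele_ext833 _ _ (fun w => ?_) (fun v => ?_)
    · rw [e1 w 1 1, e1 w 0 0, Matrix.diagonal_apply_eq, Matrix.diagonal_apply_eq]
    · rw [e2 v 1 1, e2 v 0 0, Matrix.one_apply_eq, Matrix.one_apply_eq]
  refine Matrix.ext fun i j => ?_
  rw [Matrix.scalar_apply, Matrix.diagonal_apply]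
  by_cases hij : i = j
  · subst hij
    rw [if_pos rfl]
    fin_cases i
    · rfl
    · exact hdiag
  · rw [if_neg hij]
    exact hoff i j hij

/-- A ray generator is central. -/
theorem rayGen_commute833 {r : G K} (hr : IsRayGen r) (g : G K) : Commute r g := by
  apply Units.ext
  rw [Units.val_mul, Units.val_mul, rayGen_val833 hr]
  exact (Matrix.scalar_commute _ (fun r' => Commute.all _ r') _).eq

/-- The module of the determinant of a ray generator is `2`. -/
theorem detNorm_rayGen833 {r : G K} (hr : IsRayGen r) : detNorm833 r = 2 := by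
  have hval := rayGen_val833 hr
  obtain ⟨hfin, t, htpos, htpow, hinf⟩ := hr
  set x : Adl K := (r : Matrix (Fin 2) (Fin 2) (Adl K)) 0 0 with hx
  have hdet : Matrix.det (r : Matrix (Fin 2) (Fin 2) (Adl K)) = x * x := by
    rw [hval, Matrix.scalar_apply, Matrix.det_diagonal, Fin.prod_univ_two]
  have hx1 : ∀ w : InfinitePlace K, ‖x.1 w‖ = t := by
    intro w
    have h1 := (InfinitePlace.Completion.isometry_extensionEmbedding w).norm_map_of_map_zero
      (map_zero _) (x.1 w)
    have h2 : InfinitePlace.Completion.extensionEmbedding w (x.1 w) = (t : ℂ) := by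
      have := congrFun (congrFun (hinf w) 0) 0
      rw [Matrix.diagonal_apply_eq] at this
      exact this
    rw [← h1, h2, Complex.norm_real, Real.norm_eq_abs, abs_of_pos htpos]
  have hx2 : ∀ v : HeightOneSpectrum (𝓞 K), x.2 v = 1 := by
    intro v
    have := congrFun (congrFun (hfin v) 0) 0
    rw [Matrix.one_apply_eq] at this
    exact this
  show T1.adNorm K (Matrix.det (r : Matrix (Fin 2) (Fin 2) (Adl K))) = 2
  rw [hdet]
  unfold T1.adNorm
  have hfinprod : (∏ᶠ v : HeightOneSpectrum (𝓞 K), ‖(x * x).2 v‖) = 1 := by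
    have : ∀ v : HeightOneSpectrum (𝓞 K), ‖(x * x).2 v‖ = 1 := by
      intro v
      have e : (x * x).2 v = x.2 v * x.2 v := rfl
      rw [e, hx2 v, mul_one]
      exact norm_one
    simp only [this]
    exact finprod_one
  have hinfprod : ∀ w : InfinitePlace K, ‖(x * x).1 w‖ = t * t := by
    intro w
    have e : (x * x).1 w = x.1 w * x.1 w := rfl
    rw [e, norm_mul, hx1 w]
  rw [hfinprod, mul_one]
  simp only [hinfprod]
  rw [Finset.prod_pow_eq_pow_sum, InfinitePlace.sum_mult_eq, ← sq, ← pow_mul]
  exact htpow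

theorem detNorm_mul_zpow833 (hN : T1.AdNormC K) {r : G K} (hr : IsRayGen r) (g : G K) (m : ℤ) :
    detNorm833 (g * r ^ m) = detNorm833 g * (2 : ℝ) ^ m := by
  induction m using Int.induction_on with
  | zero => simp
  | succ n ih =>
    rw [zpow_add_one, ← mul_assoc, detNorm833_mul hN, ih, detNorm_rayGen833 hr,
      zpow_add_one₀ (two_ne_zero), mul_assoc]
  | pred n ih =>
    have h2 : detNorm833 (g * r ^ (-(n : ℤ) - 1)) * 2 = detNorm833 (g * r ^ (-(n : ℤ))) := by
      rw [← detNorm_rayGen833 hr, ← detNorm833_mul hN, mul_assoc, ← zpow_add_one]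
      simp
    rw [ih] at h2
    rw [zpow_sub_one₀ (two_ne_zero)]
    field_simp
    linarith

/-- Every element of `GL₂(𝔸_K)` has a translate by a power of the ray generator in the slab. -/
theorem exists_zpow_mem_slab833 (hN : T1.AdNormC K) {r : G K} (hr : IsRayGen r) (g : G K) :
    ∃ m : ℤ, g * r ^ m ∈ T1.slab K := by
  obtain ⟨n, hn1, hn2⟩ := exists_mem_Ico_zpow (x := detNorm833 g) (y := (2 : ℝ))
    (detNorm833_pos hN g) one_lt_two
  refine ⟨-n, ?_⟩
  rw [mem_slab_iff833, detNorm_mul_zpow833 hN hr, zpow_neg]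
  have hpos : (0 : ℝ) < 2 ^ n := zpow_pos two_pos n
  constructor
  · rw [le_mul_inv_iff₀ hpos, one_mul]
    exact hn1
  · rw [mul_inv_lt_iff₀ hpos]
    rw [zpow_add_one₀ two_ne_zero] at hn2
    linarith

/-- Invariance under the powers of the ray generator. -/
theorem ray_zpow833 {r : G K} {φ : G K → ℂ} (hray : ∀ g : G K, φ (g * r) = φ g) (m : ℤ)
    (g : G K) : φ (g * r ^ m) = φ g := by
  induction m using Int.induction_on with
  | zero => simp
  | succ n ih => rw [zpow_add_one, ← mul_assoc, hray, ih]
  | pred n ih =>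
    have h := hray (g * r ^ (-(n : ℤ) - 1))
    rw [mul_assoc, ← zpow_add_one, sub_add_cancel] at h
    rw [← h, ih]

/-! ## 4. The leaf -/

/-- Frames exist (as in T2.01). -/
theorem frame_nonempty833 (h : T1.T1Out K) : Nonempty (Frame K) := by
  obtain ⟨-, hlc, -, -⟩ := h.locComp
  have : BorelSpace (G K) := ⟨rfl⟩
  have := hlc
  obtain ⟨F, hF, hsub, hstrict, hfin⟩ :=
    h.fundDom (Measure.haar : Measure (G K)) inferInstance
  exact ⟨⟨Measure.haar, inferInstance, F, hF, hsub, hstrict, hfin⟩⟩

/-- **T2.21, first part**: frames with a ray generator exist. -/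
theorem frameRExists833 (h : T1.T1Out K) : FrameRExists K := by
  obtain ⟨F⟩ := frame_nonempty833 h
  obtain ⟨r, hr⟩ := exists_rayGen833 K
  exact ⟨⟨F, r, hr⟩⟩

/-- **T2.21, second part**: the functions of the class are square integrable on the domain and
the pairing is definite.  (Only continuity, boundedness, left invariance under `GL₂(K)` and right
invariance under the ray generator are used.) -/
theorem pairDefiniteT833 (h : T1.T1Out K) (𝔫 : Ideal (𝓞 K)) (τ : G K → ℂ) :
    PairDefiniteT K 𝔫 τ := by
  intro R φ hφ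
  have : BorelSpace (G K) := ⟨rfl⟩
  have := R.F.haar
  have hN := h.adNorm
  obtain ⟨C, hC⟩ := hφ.aut.bdd
  have hcont : Continuous (fun g => φ g * (starRingEnd ℂ) (φ g)) :=
    hφ.aut.cont.mul (Complex.continuous_conj.comp hφ.aut.cont)
  have hint : IntegrableOn (fun g => φ g * (starRingEnd ℂ) (φ g)) R.F.D R.F.μ := by
    refine Measure.integrableOn_of_bounded (M := C * C) R.F.fin.ne hcont.aestronglyMeasurable
      (Filter.Eventually.of_forall fun g => ?_)
    rw [norm_mul, RCLike.norm_conj]
    exact mul_le_mul (hC g) (hC g) (norm_nonneg _) ((norm_nonneg _).trans (hC g))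
  refine ⟨hint, fun h0 => ?_⟩
  -- the real form of the pairing
  have hreal : ∀ g, φ g * (starRingEnd ℂ) (φ g) = ((Complex.normSq (φ g) : ℝ) : ℂ) :=
    fun g => Complex.mul_conj (φ g)
  have hintR : IntegrableOn (fun g => Complex.normSq (φ g)) R.F.D R.F.μ := by
    have := hint.re
    refine this.congr (Filter.Eventually.of_forall fun g => ?_)
    show (φ g * (starRingEnd ℂ) (φ g)).re = Complex.normSq (φ g)
    rw [hreal, Complex.ofReal_re]
  have h0R : ∫ g in R.F.D, Complex.normSq (φ g) ∂(R.F.μ) = 0 := by
    have h1 : pair R.F φ φ = ((∫ g in R.F.D, Complex.normSq (φ g) ∂(R.F.μ) : ℝ) : ℂ) := by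
      unfold pair
      simp only [hreal]
      exact integral_ofReal
    rw [h1] at h0
    exact_mod_cast h0
  have hae : (fun g => Complex.normSq (φ g)) =ᵐ[R.F.μ.restrict R.F.D] 0 :=
    (setIntegral_eq_zero_iff_of_nonneg_ae
      (Filter.Eventually.of_forall fun g => Complex.normSq_nonneg _) hintR).1 h0R
  -- the open set where `φ ≠ 0`
  have hVopen : IsOpen {g : G K | φ g ≠ 0} := isOpen_ne_fun hφ.aut.cont continuous_const
  have hVD : R.F.μ ({g : G K | φ g ≠ 0} ∩ R.F.D) = 0 := by
    have h2 : R.F.μ.restrict R.F.D {g : G K | φ g ≠ 0} = 0 := by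
      have h3 : ∀ᵐ g ∂(R.F.μ.restrict R.F.D), Complex.normSq (φ g) = 0 := hae
      rw [ae_iff] at h3
      have h4 : {g : G K | φ g ≠ 0} = {g : G K | ¬ Complex.normSq (φ g) = 0} := by
        ext g
        show φ g ≠ 0 ↔ ¬ Complex.normSq (φ g) = 0
        rw [Complex.normSq_eq_zero]
      rw [h4]
      exact h3
    rwa [Measure.restrict_apply hVopen.measurableSet] at h2
  -- the part of `V` in the slab is a null set
  have hVslab : R.F.μ ({g : G K | φ g ≠ 0} ∩ T1.slab K) = 0 := by
    have hcnt := countable_GL833 K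
    have hsub : {g : G K | φ g ≠ 0} ∩ T1.slab K ⊆
        ⋃ γ : GL (Fin 2) K, (fun g : G K => T1.ratG K γ * g) ⁻¹'
          ({g : G K | φ g ≠ 0} ∩ R.F.D) := by
      rintro g ⟨hg, hgs⟩
      obtain ⟨γ, hγ, -⟩ := R.F.strict g hgs
      refine Set.mem_iUnion.2 ⟨γ, ?_, hγ⟩
      show φ (T1.ratG K γ * g) ≠ 0
      have := hφ.aut.left_inv γ g
      rw [show T1.ratG K γ * g
        = Matrix.GeneralLinearGroup.map (algebraMap K (Adl K)) γ * g from rfl, this]
      exact hg
    refine measure_mono_null hsub ?_
    refine measure_iUnion_null fun γ => ?_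
    rw [measure_preimage_mul]
    exact hVD
  -- `V` is a null set: it is covered by the translates of its part in the slab by the powers of
  -- the central element `r`
  have hVnull : R.F.μ {g : G K | φ g ≠ 0} = 0 := by
    have hsub : {g : G K | φ g ≠ 0} ⊆
        ⋃ m : ℤ, (fun g : G K => R.r ^ m * g) ⁻¹' ({g : G K | φ g ≠ 0} ∩ T1.slab K) := by
      intro g hg
      obtain ⟨m, hm⟩ := exists_zpow_mem_slab833 hN R.ray g
      have hcomm : R.r ^ m * g = g * R.r ^ m := ((rayGen_commute833 R.ray g).zpow_left m).eq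
      refine Set.mem_iUnion.2 ⟨m, ?_, ?_⟩
      · show φ (R.r ^ m * g) ≠ 0
        rw [hcomm, ray_zpow833 hφ.aut.ray m g]
        exact hg
      · show R.r ^ m * g ∈ T1.slab K
        rw [hcomm]
        exact hm
    refine measure_mono_null hsub ?_
    refine measure_iUnion_null fun m => ?_
    rw [measure_preimage_mul]
    exact hVslab
  have hempty : {g : G K | φ g ≠ 0} = ∅ := (hVopen.measure_eq_zero_iff R.F.μ).1 hVnull
  intro g
  by_contra hg
  have hmem : g ∈ {g : G K | φ g ≠ 0} := hg
  rw [hempty] at hmem
  exact hmem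

/-- **T2.21 `LeafT01`** (registry row 1144), VERBATIM. -/
theorem leafT01_833 (K : Type) [Field K] [NumberField K] : LeafT01 K :=
  fun h => ⟨frameRExists833 h, fun 𝔫 τ _ _ => pairDefiniteT833 h 𝔫 τ⟩

/-- Type check against the frozen Prop. -/
example (K : Type) [Field K] [NumberField K] : Fermat.Agent.LT.T2.LeafT01 K := leafT01_833 K

end Fermat.Agent.LT.T2.H833

end
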