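import Mathlib
import Fermat.Agent.LT.H556.A0
import Fermat.Agent.LT.T1.Spec
import Fermat.Agent.LT.T2.Spec
import Fermat.Agent.LT.T2.SpecTau
import Fermat.Agent.LT.T2.H291.OpsSpecT
import Fermat.Agent.LT.H129.HeckeLevel

/-!
# Row LT, tower T2, sub-leaf T2.27.02 `SubHeckePresT291` (helper833) -- OFF-MAIN

Spec bytes: `T2/H291/OpsSpecT.lean` = helper291@22c6ecc98 (sha256 c8359c85), `T2/Spec.lean` v3
(sha256 b934629a), `T2/SpecTau.lean` (sha256 4d2b0fc2), `T1/Spec.lean` (sha256 e8ae48d6),
`H556/A0.lean` (sha256 66d3374a); asset `H129/*` = helper129@c463dcb1c (byte-identical copies).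

PROVED here: `subHeckePresT833 : T2.H291.SubHeckePresT291 K`, VERBATIM: Hecke sums at `v ∤ 𝔫`
preserve the cusp functions of the class `(𝔫, τ, r)`.

This is the `T`-form of row `T2.07.02`; the lemmas on the level group, on the permutation of the
cosets and on the constant term are those of helper655 (`LT/T2/H655/HeckePres.lean`,
helper655@e92b55ca7, which is typed against the older `T2/Spec` 43969e81), re-typed here against
the `T`-vocabulary, with fresh names (suffix `833`).

* level invariance: for `u ∈ U(𝔫)` and `h ∈ H` there is a unique `h' ∈ H` with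
  `h'⁻¹ u h ∈ U(𝔫)` (completeness of the coset system, `H129.heckeCosetSystem_complete129`), and
  `h ↦ h'` is a permutation of `H`;
* type `τ` under the compact groups at infinity and invariance under the ray generator `r`: an
  element which is trivial at the finite places commutes with an element which is trivial at the
  infinite places (`commute_inf_fin833`);
* cuspidality: the constant term is an integral over a set of finite measure
  (`T1.AddFundDomC` and `IsAddFundamentalDomain.measure_eq`), so it commutes with the finite sum.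

Of the standing hypotheses `CtxT291` only `t1.addFundDom` is used.
-/

set_option autoImplicit false

open IsDedekindDomain NumberField MeasureTheory
open Fermat.Agent.LT.H556.A0 Fermat.Agent.LT.T2 Fermat.Agent.LT.H129

noncomputable section

namespace Fermat.Agent.LT.T2.H833

variable {K : Type} [Field K] [NumberField K]

/-! ## Integrality of the level group -/

/-- The closure of an ideal lies in `𝒪_v`. -/
theorem valued_le_one_of_mem_idealClosure833 {𝔫 : Ideal (𝓞 K)} {v : HeightOneSpectrum (𝓞 K)}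
    {x : v.adicCompletion K} (hx : x ∈ idealClosure 𝔫 v) : Valued.v x ≤ 1 := by
  have hcl : IsClosed ((v.adicCompletionIntegers K : Set (v.adicCompletion K))) :=
    Valued.isClosed_valuationSubring (v.adicCompletion K)
  have hsub : ((fun x : 𝓞 K => algebraMap K (v.adicCompletion K) (algebraMap (𝓞 K) K x)) ''
      (𝔫 : Set (𝓞 K))) ⊆ (v.adicCompletionIntegers K : Set (v.adicCompletion K)) := by
    rintro _ ⟨a, -, rfl⟩
    show Valued.v (algebraMap K (v.adicCompletion K) (algebraMap (𝓞 K) K a)) ≤ 1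
    have h1 : Valued.v (algebraMap K (v.adicCompletion K) (algebraMap (𝓞 K) K a))
        = v.valuation K (algebraMap (𝓞 K) K a) :=
      HeightOneSpectrum.valuedAdicCompletion_eq_valuation' v _
    rw [h1]
    exact HeightOneSpectrum.valuation_le_one v a
  exact closure_minimal hsub hcl hx

/-- The elements of the level group are integral at every finite place. -/
theorem isIntegralAt_of_inLevelGroup833 {𝔫 : Ideal (𝓞 K)} {u : G K} (hu : InLevelGroup 𝔫 u)
    (v : HeightOneSpectrum (𝓞 K)) : IsIntegralAt v u ∧ IsIntegralAt v u⁻¹ := by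
  have h1 : ∀ i j : Fin 2,
      Valued.v ((1 : Matrix (Fin 2) (Fin 2) (v.adicCompletion K)) i j) ≤ 1 := by
    intro i j
    by_cases hij : i = j
    · subst hij; simp
    · simp [hij]
  have key : ∀ (M : Matrix (Fin 2) (Fin 2) (v.adicCompletion K)) (i j : Fin 2),
      (M - 1) i j ∈ idealClosure 𝔫 v → Valued.v (M i j) ≤ 1 := by
    intro M i j h
    have h2 := valued_le_one_of_mem_idealClosure833 h
    have e : M i j = (M - 1) i j + (1 : Matrix (Fin 2) (Fin 2) (v.adicCompletion K)) i j := by
      rw [Matrix.sub_apply, sub_add_cancel]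
    rw [e]
    exact le_trans (Valuation.map_add _ _ _) (max_le h2 (h1 i j))
  exact ⟨fun i j => key _ i j (hu.2 v i j).1, fun i j => key _ i j (hu.2 v i j).2⟩


/-! ## The level group permutes the cosets -/

/-- The determinant of an element of `GL₂(𝒪_v)` is a unit. -/
theorem valued_det_eq_one833 {v : HeightOneSpectrum (𝓞 K)} {x : GL (Fin 2) (v.adicCompletion K)}
    (hx : IsInt129 (v.adicCompletionIntegers K) x)
    (hx' : IsInt129 (v.adicCompletionIntegers K) x⁻¹) :
    Valued.v (x : Matrix (Fin 2) (Fin 2) (v.adicCompletion K)).det = 1 := by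
  have h1 : Valued.v (x : Matrix (Fin 2) (Fin 2) (v.adicCompletion K)).det ≤ 1 :=
    det_mem_of_isInt129 hx
  have h2 : Valued.v ((x⁻¹ : GL (Fin 2) (v.adicCompletion K)) :
      Matrix (Fin 2) (Fin 2) (v.adicCompletion K)).det ≤ 1 := det_mem_of_isInt129 hx'
  have h3 : (x : Matrix (Fin 2) (Fin 2) (v.adicCompletion K)).det
      * ((x⁻¹ : GL (Fin 2) (v.adicCompletion K)) :
        Matrix (Fin 2) (Fin 2) (v.adicCompletion K)).det = 1 := by
    rw [← Matrix.det_mul, ← Matrix.GeneralLinearGroup.coe_mul, mul_inv_cancel]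
    simp
  have h4 := congrArg (Valued.v : v.adicCompletion K → _) h3
  rw [map_mul, map_one] at h4
  refine le_antisymm h1 ?_
  calc (1 : WithZero (Multiplicative ℤ))
      = Valued.v (x : Matrix (Fin 2) (Fin 2) (v.adicCompletion K)).det
        * Valued.v ((x⁻¹ : GL (Fin 2) (v.adicCompletion K)) :
          Matrix (Fin 2) (Fin 2) (v.adicCompletion K)).det := h4.symm
    _ ≤ Valued.v (x : Matrix (Fin 2) (Fin 2) (v.adicCompletion K)).det * 1 :=
        mul_le_mul_right h2 _
    _ = Valued.v (x : Matrix (Fin 2) (Fin 2) (v.adicCompletion K)).det := mul_one _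

/-- For `u ∈ U(𝔫)` and `h` in a Hecke coset system at `v ∤ 𝔫` there is `h'` in the system with
`h'⁻¹ u h ∈ U(𝔫)`. -/
theorem exists_mem_levelGroup833 {𝔫 : Ideal (𝓞 K)} {v : HeightOneSpectrum (𝓞 K)}
    (hv : ¬ v.asIdeal ∣ 𝔫) {H : Finset (G K)} (hH : IsHeckeCosetSystem v H) {u : G K}
    (hu : InLevelGroup 𝔫 u) {h : G K} (hh : h ∈ H) :
    ∃ h' ∈ H, InLevelGroup 𝔫 (h'⁻¹ * (u * h)) := by
  obtain ⟨hu1, hu2⟩ := isIntegralAt_of_inLevelGroup833 hu v
  have hhH := hH.2.1 h hh
  have hint : IsIntegralAt v (u * h) := by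
    rw [← isInt129_finCompHom_iff, map_mul]
    exact isInt129_mul hu1 hhH.2.1
  have hdet : Valued.v (finComp v (u * h)).det = WithZero.exp (-1 : ℤ) := by
    rw [← coe_finCompHom129, map_mul, Matrix.GeneralLinearGroup.coe_mul, Matrix.det_mul, map_mul,
      valued_det_eq_one833 (x := finCompHom129 v u) hu1 (by rw [← map_inv]; exact hu2), one_mul]
    exact hhH.2.2
  obtain ⟨h', hh', hi1, hi2, -⟩ := heckeCosetSystem_complete129 hH hint hdet
  have hh'H := hH.2.1 h' hh'
  refine ⟨h', hh', fun w => ?_, fun v' i j => ?_⟩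
  · rw [trivAtInf_iff129, map_mul, map_mul, map_inv,
      (trivAtInf_iff129 w h').1 (hh'H.1.1 w), (trivAtInf_iff129 w u).1 (hu.1 w),
      (trivAtInf_iff129 w h).1 (hhH.1.1 w)]
    simp
  · have h1 : ∀ i j : Fin 2,
        Valued.v ((1 : Matrix (Fin 2) (Fin 2) (v'.adicCompletion K)) i j) ≤ 1 := by
      intro i j
      by_cases hij : i = j
      · subst hij; simp
      · simp [hij]
    by_cases hv' : v' = v
    · subst hv'
      have e : (h'⁻¹ * (u * h))⁻¹ = (u * h)⁻¹ * h' := by group
      constructor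
      · apply dense_ideal129 hv
        rw [Matrix.sub_apply]
        exact le_trans (Valuation.map_sub _ _ _) (max_le (hi1 i j) (h1 i j))
      · apply dense_ideal129 hv
        rw [Matrix.sub_apply, e]
        exact le_trans (Valuation.map_sub _ _ _) (max_le (hi2 i j) (h1 i j))
    · have e1 : finCompHom129 v' (h'⁻¹ * (u * h)) = finCompHom129 v' u := by
        rw [map_mul, map_mul, map_inv, (trivAtFin_iff129 v' h').1 (hh'H.1.2 v' hv'),
          (trivAtFin_iff129 v' h).1 (hhH.1.2 v' hv')]
        simp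
      have e2 : finComp v' (h'⁻¹ * (u * h)) = finComp v' u := by
        rw [← coe_finCompHom129, e1]
        rfl
      have e3 : finComp v' (h'⁻¹ * (u * h))⁻¹ = finComp v' u⁻¹ := by
        rw [← coe_finCompHom129, map_inv, e1, ← map_inv]
        rfl
      rw [e2, e3]
      exact hu.2 v' i j

/-- **Level invariance of the Hecke sum.** -/
theorem heckeSum_level_inv833 {𝔫 : Ideal (𝓞 K)} {v : HeightOneSpectrum (𝓞 K)}
    (hv : ¬ v.asIdeal ∣ 𝔫) {H : Finset (G K)} (hH : IsHeckeCosetSystem v H) {φ : G K → ℂ}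
    (hφ : ∀ u : G K, InLevelGroup 𝔫 u → ∀ g : G K, φ (g * u) = φ g) {u : G K}
    (hu : InLevelGroup 𝔫 u) (g : G K) :
    ∑ h ∈ H, φ (g * u * h) = ∑ h ∈ H, φ (g * h) := by
  classical
  have key : ∀ h ∈ H, ∃ h' ∈ H, InLevelGroup 𝔫 (h'⁻¹ * (u * h)) :=
    fun h hh => exists_mem_levelGroup833 hv hH hu hh
  choose! σ hσ using key
  have hinj : Set.InjOn σ (H : Set (G K)) := by
    intro h₁ hh₁ h₂ hh₂ he
    by_contra hne
    have k₁ := isIntegralAt_of_inLevelGroup833 (hσ h₁ hh₁).2 v
    have k₂ := isIntegralAt_of_inLevelGroup833 (hσ h₂ hh₂).2 v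
    have e : h₁⁻¹ * h₂ = ((σ h₁)⁻¹ * (u * h₁))⁻¹ * ((σ h₂)⁻¹ * (u * h₂)) := by
      rw [he]; group
    apply hH.2.2 h₁ hh₁ h₂ hh₂ hne
    rw [e, ← isInt129_finCompHom_iff, map_mul]
    exact isInt129_mul ((isInt129_finCompHom_iff v _).2 k₁.2) ((isInt129_finCompHom_iff v _).2 k₂.1)
  have hmaps : ∀ h ∈ H, σ h ∈ H := fun h hh => (hσ h hh).1
  have hsurj : Set.SurjOn σ (H : Set (G K)) (H : Set (G K)) :=
    Finset.surjOn_of_injOn_of_card_le σ hmaps hinj le_rfl
  refine Finset.sum_nbij σ hmaps hinj hsurj fun h hh => ?_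
  have e : g * u * h = g * σ h * ((σ h)⁻¹ * (u * h)) := by group
  rw [e, hφ _ (hσ h hh).2]


/-! ## Archimedean invariance -/

/-- An element which is trivial at the finite places commutes with an element which is trivial at
the infinite places. -/
theorem commute_inf_fin833 {z h : G K} (hz : ∀ v : HeightOneSpectrum (𝓞 K), TrivAtFin v z)
    (hh : ∀ w : InfinitePlace K, TrivAtInf w h) : z * h = h * z := by
  apply G_ext129
  · intro w'
    rw [map_mul, map_mul, (trivAtInf_iff129 w' h).1 (hh w'), mul_one, one_mul]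
  · intro v'
    rw [map_mul, map_mul, (trivAtFin_iff129 v' z).1 (hz v'), mul_one, one_mul]

/-! ## Cuspidality -/

/-- A number field is countable. -/
theorem countable_numberField833 (K : Type) [Field K] [NumberField K] : Countable K :=
  (Module.finBasis ℚ K).equivFun.toEquiv.injective.countable

/-- Every fundamental domain of `K` in `𝔸_K` has finite Haar measure. -/
theorem measure_fundDom_lt_top833 (hT : T1.AddFundDomC K) :
    letI : MeasurableSpace (Adl K) := borel (Adl K)
    ∀ μ : Measure (Adl K), μ.IsAddHaarMeasure → ∀ D : Set (Adl K),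
      IsAddFundamentalDomain ((algebraMap K (Adl K)).toAddMonoidHom.range) D μ → μ D < ⊤ := by
  let _ : MeasurableSpace (Adl K) := borel (Adl K)
  have : BorelSpace (Adl K) := ⟨rfl⟩
  intro μ hμ D hD
  obtain ⟨D₀, -, hD₀, -, -, hfin⟩ := hT μ hμ
  have : Countable K := countable_numberField833 K
  have : Countable ((algebraMap K (Adl K)).toAddMonoidHom.range) :=
    (Set.countable_range _).to_subtype
  have e : μ D = μ D₀ := hD.measure_eq hD₀
  rw [e]
  exact hfin

/-- The unipotent family is continuous. -/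
theorem continuous_unip833 {n : Adl K → G K}
    (hn : ∀ x : Adl K, (n x : Matrix (Fin 2) (Fin 2) (Adl K)) = !![1, x; 0, 1]) :
    Continuous n := by
  have hinv : ∀ x : Adl K,
      (((n x)⁻¹ : G K) : Matrix (Fin 2) (Fin 2) (Adl K)) = !![1, -x; 0, 1] := by
    intro x
    apply Units.inv_eq_of_mul_eq_one_right
    rw [hn x]
    ext i j
    fin_cases i <;> fin_cases j <;> simp [Matrix.mul_apply, Fin.sum_univ_two]
  rw [Units.continuous_iff]
  constructor
  · have e : (Units.val ∘ n) = fun x : Adl K => (!![1, x; 0, 1] : Matrix (Fin 2) (Fin 2) (Adl K)) :=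
      funext hn
    rw [e]
    refine continuous_matrix fun i j => ?_
    fin_cases i <;> fin_cases j <;> simp <;> fun_prop
  · have e : (fun x : Adl K => (((n x)⁻¹ : G K) : Matrix (Fin 2) (Fin 2) (Adl K)))
        = fun x : Adl K => (!![1, -x; 0, 1] : Matrix (Fin 2) (Fin 2) (Adl K)) := funext hinv
    rw [e]
    refine continuous_matrix fun i j => ?_
    fin_cases i <;> fin_cases j <;> simp <;> fun_prop

/-- The Hecke sum of a continuous bounded cuspidal function is cuspidal. -/
theorem cuspidal_heckeSum833 (hT : T1.AddFundDomC K) (H : Finset (G K)) {φ : G K → ℂ}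
    (hc : Continuous φ) (hb : ∃ C : ℝ, ∀ g : G K, ‖φ g‖ ≤ C) (hcusp : IsCuspidalFn φ) :
    IsCuspidalFn (heckeSum H φ) := by
  let _ : MeasurableSpace (Adl K) := borel (Adl K)
  have : BorelSpace (Adl K) := ⟨rfl⟩
  intro μ hμ D hD n hn g
  have hfin : μ D < ⊤ := measure_fundDom_lt_top833 hT μ hμ D hD
  have hncont : Continuous n := continuous_unip833 hn
  obtain ⟨C, hC⟩ := hb
  have : IsFiniteMeasure (μ.restrict D) :=
    ⟨by rw [Measure.restrict_apply_univ]; exact hfin⟩
  have hint : ∀ h ∈ H, Integrable (fun x : Adl K => φ (n x * g * h)) (μ.restrict D) := by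
    intro h _
    refine Integrable.of_bound ?_ C (Filter.Eventually.of_forall fun x => hC _)
    exact (hc.comp ((hncont.mul continuous_const).mul continuous_const)).aestronglyMeasurable
  show ∫ x in D, (∑ h ∈ H, φ (n x * g * h)) ∂μ = 0
  rw [integral_finsetSum _ hint]
  refine Finset.sum_eq_zero fun h _ => ?_
  have h0 := hcusp μ hμ D hD n hn (g * h)
  simp only [← mul_assoc] at h0
  exact h0

/-! ## The leaf -/

/-- **T2.27.02 `SubHeckePresT291`**, VERBATIM. -/
theorem subHeckePresT833 (K : Type) [Field K] [NumberField K] : T2.H291.SubHeckePresT291 K := by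
  intro 𝔫 τ ctx R v hv H hH φ hφ
  refine ⟨⟨?_, ?_, ?_, ?_, ?_, ?_⟩, ?_⟩
  · exact continuous_finsetSum H fun h _ => hφ.aut.cont.comp (continuous_mul_const h)
  · obtain ⟨C, hC⟩ := hφ.aut.bdd
    refine ⟨H.card * C, fun g => ?_⟩
    calc ‖heckeSum H φ g‖ = ‖∑ h ∈ H, φ (g * h)‖ := rfl
      _ ≤ ∑ h ∈ H, ‖φ (g * h)‖ := norm_sum_le _ _
      _ ≤ ∑ _h ∈ H, C := Finset.sum_le_sum fun h _ => hC _
      _ = H.card * C := by rw [Finset.sum_const, nsmul_eq_mul]
  · intro γ g
    show ∑ h ∈ H, φ (_ * g * h) = ∑ h ∈ H, φ (g * h)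
    refine Finset.sum_congr rfl fun h _ => ?_
    rw [mul_assoc, hφ.aut.left_inv]
  · intro u hu g
    exact heckeSum_level_inv833 hv hH hφ.aut.level_inv hu g
  · intro w k hk g
    show ∑ h ∈ H, φ (g * k * h) = τ k * ∑ h ∈ H, φ (g * h)
    rw [Finset.mul_sum]
    refine Finset.sum_congr rfl fun h hh => ?_
    rw [mul_assoc, commute_inf_fin833 hk.1.2 (hH.2.1 h hh).1.1, ← mul_assoc,
      hφ.aut.arch_compact w k hk]
  · intro g
    show ∑ h ∈ H, φ (g * R.r * h) = ∑ h ∈ H, φ (g * h)
    refine Finset.sum_congr rfl fun h hh => ?_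
    rw [mul_assoc, commute_inf_fin833 R.ray.1 (hH.2.1 h hh).1.1, ← mul_assoc, hφ.aut.ray]
  · exact cuspidal_heckeSum833 ctx.t1.addFundDom H hφ.aut.cont hφ.aut.bdd hφ.cuspidal

end Fermat.Agent.LT.T2.H833

end
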